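/-
S41 / C4 [CSP], BACKUP route (helper7 #3041), piece [REDUCE] (helper52): vocabulary.

`IsParSymbol N q F` : `F : SL(2,ℚ) → V` is additive on `Δ = Γ₀(N)[1/q]` and kills the unipotents
`u(A)`, `l(N A)` (`A = ℤ[1/q]`).  Symbol-free forms of helper7's relations:
* `eq_of_col`   : same first column ⇒ same value;
* `uQ_mul` (F1) : left multiplication by `u(x)`, `x ∈ A`;
* `lQ_mul` (F2) : left multiplication by `l(N y)`, `y ∈ A`;
* `conj_tQ` (F3): conjugation by `diag(q, 1/q)` (first column `(a, c) ↦ (a, q² c)`).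
-/
import Mathlib
import Fermat.Agent.S41.Amalgam95.Delta

set_option autoImplicit false

namespace Fermat.Agent.S41.CspRed52

open Matrix Fermat.Agent.S41.Amalgam95

/-- `l(y) = [[1,0],[y,1]]` -/
def lQ (y : ℚ) : SLQ := mkQ 1 0 y 1 (by ring)

@[simp] lemma lQ_00 (y : ℚ) : (lQ y) 0 0 = 1 := rfl
@[simp] lemma lQ_01 (y : ℚ) : (lQ y) 0 1 = 0 := rfl
@[simp] lemma lQ_10 (y : ℚ) : (lQ y) 1 0 = y := rfl
@[simp] lemma lQ_11 (y : ℚ) : (lQ y) 1 1 = 1 := rfl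
@[simp] lemma uQ_00 (x : ℚ) : (uQ x) 0 0 = 1 := rfl
@[simp] lemma uQ_01 (x : ℚ) : (uQ x) 0 1 = x := rfl
@[simp] lemma uQ_10 (x : ℚ) : (uQ x) 1 0 = 0 := rfl
@[simp] lemma uQ_11 (x : ℚ) : (uQ x) 1 1 = 1 := rfl

lemma uQ_mem_DeltaQ (N : ℕ) {q : ℕ} {x : ℚ} (hx : IsAway q x) : uQ x ∈ DeltaQ N q :=
  ⟨IsAway.one, hx, ⟨0, IsAway.zero, by simp⟩, IsAway.one⟩

lemma lQ_mem_DeltaQ (N : ℕ) {q : ℕ} {y : ℚ} (hy : IsAway q y) : lQ ((N : ℚ) * y) ∈ DeltaQ N q :=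
  ⟨IsAway.one, IsAway.zero, ⟨y, hy, rfl⟩, IsAway.one⟩

lemma uQ_mul_00 (x : ℚ) (g : SLQ) : (uQ x * g) 0 0 = g 0 0 + x * g 1 0 := by
  rw [mul_00]; simp
lemma uQ_mul_10 (x : ℚ) (g : SLQ) : (uQ x * g) 1 0 = g 1 0 := by
  rw [mul_10]; simp
lemma lQ_mul_00 (y : ℚ) (g : SLQ) : (lQ y * g) 0 0 = g 0 0 := by
  rw [mul_00]; simp
lemma lQ_mul_10 (y : ℚ) (g : SLQ) : (lQ y * g) 1 0 = g 1 0 + y * g 0 0 := by
  rw [mul_10]; simp; ring

/-- A function on `SL(2,ℚ)` which is additive on `Δ = Γ₀(N)[1/q]` and kills `u(A)`, `l(N A)`. -/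
structure IsParSymbol (N q : ℕ) {V : Type*} [AddCommGroup V] (F : SLQ → V) : Prop where
  map_mul : ∀ g h, g ∈ DeltaQ N q → h ∈ DeltaQ N q → F (g * h) = F g + F h
  map_uQ : ∀ x, IsAway q x → F (uQ x) = 0
  map_lQ : ∀ y, IsAway q y → F (lQ ((N : ℚ) * y)) = 0

namespace IsParSymbol

variable {N q : ℕ} {V : Type*} [AddCommGroup V] {F : SLQ → V}

lemma map_one (hF : IsParSymbol N q F) : F 1 = 0 := by
  have h := hF.map_mul 1 1 (one_mem _) (one_mem _)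
  rw [mul_one] at h
  exact left_eq_add.mp h

lemma map_inv (hF : IsParSymbol N q F) {g : SLQ} (hg : g ∈ DeltaQ N q) : F g⁻¹ = - F g := by
  have h := hF.map_mul g g⁻¹ hg (inv_mem hg)
  rw [mul_inv_cancel, hF.map_one] at h
  exact eq_neg_of_add_eq_zero_right h.symm

/-- (F1) -/
lemma uQ_mul (hF : IsParSymbol N q F) {x : ℚ} (hx : IsAway q x) {g : SLQ}
    (hg : g ∈ DeltaQ N q) : F (uQ x * g) = F g := by
  rw [hF.map_mul _ _ (uQ_mem_DeltaQ N hx) hg, hF.map_uQ x hx, zero_add]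

/-- (F2) -/
lemma lQ_mul (hF : IsParSymbol N q F) {y : ℚ} (hy : IsAway q y) {g : SLQ}
    (hg : g ∈ DeltaQ N q) : F (lQ ((N : ℚ) * y) * g) = F g := by
  rw [hF.map_mul _ _ (lQ_mem_DeltaQ N hy) hg, hF.map_lQ y hy, zero_add]

/-- right multiplication by `u(x)` -/
lemma mul_uQ (hF : IsParSymbol N q F) {x : ℚ} (hx : IsAway q x) {g : SLQ}
    (hg : g ∈ DeltaQ N q) : F (g * uQ x) = F g := by
  rw [hF.map_mul _ _ hg (uQ_mem_DeltaQ N hx), hF.map_uQ x hx, add_zero]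

/-- same first column ⇒ same value -/
lemma eq_of_col (hF : IsParSymbol N q F) {g g' : SLQ} (hg : g ∈ DeltaQ N q)
    (hg' : g' ∈ DeltaQ N q) (h0 : g 0 0 = g' 0 0) (h1 : g 1 0 = g' 1 0) : F g = F g' := by
  have hk : g⁻¹ * g' ∈ DeltaQ N q := mul_mem (inv_mem hg) hg'
  have hdet := det_eq g
  have hdet' := det_eq g'
  have e : g⁻¹ * g' = uQ ((g⁻¹ * g') 0 1) := by
    apply ext_entries
    · rw [mul_00, inv_00, inv_01, uQ_00, ← h0, ← h1]; linarith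
    · rw [uQ_01]
    · rw [mul_10, inv_10, inv_11, uQ_10, ← h0, ← h1]; ring
    · rw [uQ_11, mul_11, inv_10, inv_11]
      have h2 := det_eq (g⁻¹ * g')
      rw [mul_00, mul_10, inv_00, inv_01, inv_10, inv_11, ← h0, ← h1] at h2
      have h3 : g 1 1 * g 0 0 + -g 0 1 * g 1 0 = 1 := by linarith
      have h4 : -g 1 0 * g 0 0 + g 0 0 * g 1 0 = 0 := by ring
      rw [h3, h4, one_mul, mul_zero, sub_zero] at h2
      rw [mul_11, inv_10, inv_11] at h2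
      exact h2
  have hx : IsAway q ((g⁻¹ * g') 0 1) := hk.2.1
  have : g' = g * uQ ((g⁻¹ * g') 0 1) := by rw [← e]; group
  rw [this, hF.mul_uQ hx hg]

/-- (F3) conjugation by `t = diag(q, 1/q)` -/
lemma conj_tQ [Fact q.Prime] (hF : IsParSymbol N q F) {g : SLQ} (hg : g ∈ DeltaQ N q) :
    F ((tQ q)⁻¹ * g * tQ q) = F g := by
  have ht : tQ q ∈ DeltaQ N q := tQ_mem_DeltaQ N q
  rw [hF.map_mul _ _ (mul_mem (inv_mem ht) hg) ht, hF.map_mul _ _ (inv_mem ht) hg,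
    hF.map_inv ht]
  abel

end IsParSymbol

end Fermat.Agent.S41.CspRed52
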