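/-
S41 / C4 [CSP], BACKUP route (helper7 #3041), piece [REDUCE] (helper52) = §3 (i)(ii)(iv):
Dirichlet reduction of an arbitrary coprime integral first column `(a, c)`, `a ≡ 1 mod N`, to a
column `(P, N r)` with `P` a prime `≡ 1 mod N` and `r` a "good" prime.
-/
import Mathlib
import Fermat.Agent.S41.CspRed52.Basic52

set_option autoImplicit false

namespace Fermat.Agent.S41.CspRed52

open Matrix Fermat.Agent.S41.Amalgam95

/-- The auxiliary primes `r` of helper7 #3041 §3 (ii): `r ≡ 3 mod 4`, `r ≡ 2` modulo the odd part of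
`N φ(2N) p`, `r > q²`. -/
structure GoodPrime (N q p r : ℕ) : Prop where
  prime : r.Prime
  mod4 : r ≡ 3 [MOD 4]
  modK : r ≡ 2 [MOD ordCompl[2] (N * Nat.totient (2 * N) * p)]
  gt : q ^ 2 < r

/-- Existence of good primes in a unit class modulo a large prime `P` (Dirichlet + CRT). -/
theorem exists_goodPrime (N q p : ℕ) (hN : 0 < N) (hp : p.Prime) {P : ℕ} (hP : P.Prime)
    (hP2 : P ≠ 2) (hPK : ¬ P ∣ N * Nat.totient (2 * N) * p) (κ : ℤ) (hκ : IsCoprime κ P)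
    (B : ℕ) : ∃ r, GoodPrime N q p r ∧ B < r ∧ (r : ℤ) ≡ κ [ZMOD P] := by
  set n := N * Nat.totient (2 * N) * p with hn
  have hn0 : n ≠ 0 := by
    have h1 : 0 < Nat.totient (2 * N) := Nat.totient_pos.mpr (by omega)
    exact (Nat.mul_pos (Nat.mul_pos hN h1) hp.pos).ne'
  set K := ordCompl[2] n with hK
  have hK0 : K ≠ 0 := (Nat.ordCompl_pos 2 hn0).ne'
  have hK2 : Nat.Coprime 2 K := Nat.coprime_ordCompl Nat.prime_two hn0
  have hKn : K ∣ n := Nat.ordCompl_dvd n 2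
  have h4K : Nat.Coprime 4 K := by
    have : Nat.Coprime (2 ^ 2) K := Nat.Coprime.pow_left 2 hK2
    simpa using this
  have hPK' : Nat.Coprime P K := by
    rw [Nat.Prime.coprime_iff_not_dvd hP]
    exact fun h => hPK (h.trans hKn)
  have hP4 : Nat.Coprime P 4 := by
    have : Nat.Coprime P (2 ^ 2) := Nat.Coprime.pow_right 2
      ((Nat.coprime_primes hP Nat.prime_two).mpr hP2)
    simpa using this
  have h4KP : Nat.Coprime (4 * K) P := (Nat.Coprime.mul_left hP4.symm hPK'.symm)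
  -- CRT
  obtain ⟨k₁, hk₁4, hk₁K⟩ := Nat.chineseRemainder h4K 3 2
  set κ' : ℕ := (κ % P).toNat with hκ'
  have hP0 : (P : ℤ) ≠ 0 := by exact_mod_cast hP.ne_zero
  have hκ'eq : (κ' : ℤ) = κ % P := Int.toNat_of_nonneg (Int.emod_nonneg _ hP0)
  obtain ⟨k₂, hk₂1, hk₂P⟩ := Nat.chineseRemainder h4KP k₁ κ'
  have hk₂4 : k₂ ≡ 3 [MOD 4] := (hk₂1.of_mul_right K).trans hk₁4
  have hk₂K : k₂ ≡ 2 [MOD K] := (hk₂1.of_mul_left 4).trans hk₁K
  have hc4 : Nat.Coprime k₂ 4 := by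
    have := hk₂4.gcd_eq
    rw [Nat.Coprime, this]; decide
  have hcK : Nat.Coprime k₂ K := by
    have := hk₂K.gcd_eq
    rw [Nat.Coprime, this]; exact hK2
  have hcP : Nat.Coprime k₂ P := by
    have h1 := hk₂P.gcd_eq
    rw [Nat.Coprime, h1]
    have h2 : IsCoprime (κ' : ℤ) (P : ℤ) := by
      rw [hκ'eq]
      have : κ % P = κ - P * (κ / P) := by rw [Int.emod_def]
      rw [this]
      have h3 : IsCoprime (κ + (-(κ / P)) * (P : ℤ)) (P : ℤ) := hκ.add_mul_right_left _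
      convert h3 using 1; ring
    exact Nat.isCoprime_iff_coprime.mp h2
  have hcop : Nat.Coprime k₂ (4 * K * P) :=
    Nat.Coprime.mul_right (Nat.Coprime.mul_right hc4 hcK) hcP
  have hm0 : 4 * K * P ≠ 0 := by
    have := hP.ne_zero
    positivity
  obtain ⟨r, hrB, hr, hrm⟩ := Nat.forall_exists_prime_gt_and_modEq (max B (q ^ 2)) hm0 hcop
  have hr4 : r ≡ 3 [MOD 4] := by
    have : r ≡ k₂ [MOD 4] := by
      have h := hrm.of_mul_right P
      exact h.of_mul_right K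
    exact this.trans hk₂4
  have hrK : r ≡ 2 [MOD K] := by
    have : r ≡ k₂ [MOD K] := by
      have h := hrm.of_mul_right P
      exact h.of_mul_left 4
    exact this.trans hk₂K
  have hrP : r ≡ κ' [MOD P] := (hrm.of_mul_left (4 * K)).trans hk₂P
  refine ⟨r, ⟨hr, hr4, hrK, lt_of_le_of_lt (le_max_right _ _) hrB⟩,
    lt_of_le_of_lt (le_max_left _ _) hrB, ?_⟩
  have h1 : (r : ℤ) ≡ (κ' : ℤ) [ZMOD P] := Int.natCast_modEq_iff.mpr hrP
  rw [hκ'eq] at h1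
  exact h1.trans (Int.mod_modEq κ P)

variable {V : Type*} [AddCommGroup V] {F : SLQ → V} {N q p : ℕ}

/-- The reduction for `c ≠ 0`. -/
theorem reduce_aux (hF : IsParSymbol N q F) (hN : 0 < N) (hp : p.Prime)
    (H : ∀ r, GoodPrime N q p r → ∀ g ∈ DeltaQ N q, ∀ a : ℤ, g 0 0 = a → a ≡ 1 [ZMOD N] →
      g 1 0 = ((N * r : ℕ) : ℚ) → F g = 0)
    (g : SLQ) (hg : g ∈ DeltaQ N q) (a c : ℤ) (h0 : g 0 0 = a) (h1 : g 1 0 = c)
    (hac : IsCoprime a c) (ha : a ≡ 1 [ZMOD N]) (hNc : (N : ℤ) ∣ c) (hc : c ≠ 0) : F g = 0 := by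
  obtain ⟨c₁, rfl⟩ := hNc
  -- (i) a prime `P ≡ a mod c`
  set n := N * Nat.totient (2 * N) * p with hn
  have hn0 : n ≠ 0 := by
    have h1 : 0 < Nat.totient (2 * N) := Nat.totient_pos.mpr (by omega)
    exact (Nat.mul_pos (Nat.mul_pos hN h1) hp.pos).ne'
  have hcabs : ((N : ℤ) * c₁).natAbs ≠ 0 := Int.natAbs_ne_zero.mpr hc
  have hac' : IsCoprime a (((N : ℤ) * c₁).natAbs : ℤ) := by
    rcases Int.natAbs_eq ((N : ℤ) * c₁) with h | h
    · rw [← h]; exact hac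
    · have : (((N : ℤ) * c₁).natAbs : ℤ) = -((N : ℤ) * c₁) := by omega
      rw [this]; exact hac.neg_right
  obtain ⟨P, hPB, hP, hPa⟩ := Nat.forall_exists_prime_gt_and_zmodEq (max 2 n) hcabs hac'
  have hP2 : P ≠ 2 := by
    have : 2 < P := lt_of_le_of_lt (le_max_left _ _) hPB
    omega
  have hPn : ¬ P ∣ n := by
    intro h
    have h1 : P ≤ n := Nat.le_of_dvd (Nat.pos_of_ne_zero hn0) h
    have h2 : n < P := lt_of_le_of_lt (le_max_right _ _) hPB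
    omega
  have hdvd : (N : ℤ) * c₁ ∣ (P : ℤ) - a := by
    have h2 := hPa.symm.dvd
    exact Int.natAbs_dvd.mp h2
  obtain ⟨k, hk⟩ := hdvd
  set g₁ := uQ (k : ℚ) * g with hg₁
  have hg₁mem : g₁ ∈ DeltaQ N q := mul_mem (uQ_mem_DeltaQ N (IsAway.of_int k)) hg
  have hFg₁ : F g₁ = F g := hF.uQ_mul (IsAway.of_int k) hg
  have hg₁0 : g₁ 0 0 = (P : ℤ) := by
    rw [hg₁, uQ_mul_00, h0, h1]
    have : ((P : ℤ) : ℚ) = (a : ℚ) + (((N : ℤ) * c₁ : ℤ) : ℚ) * (k : ℚ) := by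
      have : (P : ℤ) = a + (N : ℤ) * c₁ * k := by linarith
      exact_mod_cast this
    rw [this]; ring
  have hg₁1 : g₁ 1 0 = (((N : ℤ) * c₁ : ℤ) : ℚ) := by rw [hg₁, uQ_mul_10, h1]
  -- (ii) a good prime `r ≡ c₁ mod P`
  have hPc : IsCoprime (P : ℤ) ((N : ℤ) * c₁) := by
    have : (P : ℤ) = a + ((N : ℤ) * c₁) * k := by linarith
    rw [this]
    exact hac.add_mul_left_left k
  have hc₁P : IsCoprime c₁ (P : ℤ) := (IsCoprime.of_mul_right_right hPc).symm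
  obtain ⟨r, hr, -, hrc⟩ := exists_goodPrime N q p hN hp hP hP2 hPn c₁ hc₁P 0
  obtain ⟨y, hy⟩ := hrc.symm.dvd
  set g₂ := lQ ((N : ℚ) * (y : ℚ)) * g₁ with hg₂
  have hg₂mem : g₂ ∈ DeltaQ N q := mul_mem (lQ_mem_DeltaQ N (IsAway.of_int y)) hg₁mem
  have hFg₂ : F g₂ = F g₁ := hF.lQ_mul (IsAway.of_int y) hg₁mem
  have hg₂0 : g₂ 0 0 = (P : ℤ) := by rw [hg₂, lQ_mul_00, hg₁0]
  have hg₂1 : g₂ 1 0 = ((N * r : ℕ) : ℚ) := by
    rw [hg₂, lQ_mul_10, hg₁0, hg₁1]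
    have : (r : ℤ) = c₁ + (P : ℤ) * y := by linarith
    have h3 : ((r : ℤ) : ℚ) = (c₁ : ℚ) + ((P : ℤ) : ℚ) * (y : ℚ) := by exact_mod_cast this
    push_cast at h3 ⊢
    rw [h3]; ring
  -- (iv)
  have hP1 : (P : ℤ) ≡ 1 [ZMOD N] := by
    have h2 : (P : ℤ) ≡ a [ZMOD N] := by
      have : (N : ℤ) ∣ (P : ℤ) - a := Dvd.dvd.mul_right (Dvd.intro c₁ rfl) k |>.trans (by rw [hk])
      exact (Int.modEq_of_dvd this).symm
    exact h2.trans ha
  rw [← hFg₁, ← hFg₂]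
  exact H r hr g₂ hg₂mem (P : ℤ) hg₂0 hP1 hg₂1

/-- **[REDUCE]** (helper7 #3041 §3 (i)(ii)(iv)): if `F` vanishes on all elements of `Δ` with first
column `(a, N r)`, `a ≡ 1 mod N` an integer and `r` a good prime, then `F` vanishes on every element
of `Δ` with a coprime integral first column `(a, c)`, `a ≡ 1 mod N`, `N ∣ c`. -/
theorem reduce (hF : IsParSymbol N q F) (hN : 0 < N) (hp : p.Prime)
    (H : ∀ r, GoodPrime N q p r → ∀ g ∈ DeltaQ N q, ∀ a : ℤ, g 0 0 = a → a ≡ 1 [ZMOD N] →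
      g 1 0 = ((N * r : ℕ) : ℚ) → F g = 0)
    (g : SLQ) (hg : g ∈ DeltaQ N q) (a c : ℤ) (h0 : g 0 0 = a) (h1 : g 1 0 = c)
    (hac : IsCoprime a c) (ha : a ≡ 1 [ZMOD N]) (hNc : (N : ℤ) ∣ c) : F g = 0 := by
  by_cases hc : c = 0
  · -- shift `c` by `N a`
    subst hc
    have hau : IsUnit a := isCoprime_zero_right.mp hac
    have ha0 : a ≠ 0 := hau.ne_zero
    set g' := lQ ((N : ℚ) * (1 : ℚ)) * g with hg'
    have hg'mem : g' ∈ DeltaQ N q := mul_mem (lQ_mem_DeltaQ N IsAway.one) hg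
    have hFg' : F g' = F g := hF.lQ_mul IsAway.one hg
    rw [← hFg']
    refine reduce_aux hF hN hp H g' hg'mem a ((N : ℤ) * a) ?_ ?_ ?_ ha (Dvd.intro a rfl) ?_
    · rw [hg', lQ_mul_00, h0]
    · rw [hg', lQ_mul_10, h0, h1]; push_cast; ring
    · obtain ⟨u, hu⟩ := hau
      exact ⟨((u⁻¹ : ℤˣ) : ℤ), 0, by rw [← hu]; simp⟩
    · exact mul_ne_zero (by exact_mod_cast hN.ne') ha0
  · exact reduce_aux hF hN hp H g hg a c h0 h1 hac ha hNc hc

end Fermat.Agent.S41.CspRed52
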