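/-
S41 / C4 [CSP], BACKUP route (helper7 #3041), piece [PLUG7] (helper52): from the parabolic theorem
(`ParTheorem q p`: a symbol `F` on `Γ₀(N)[1/q]` killing `u(A)`, `l(NA)` vanishes on all elements with
a coprime integral first column `(a, c)`, `a ≡ 1 mod N`) to the consumer plug `Ihara73.CSPPlug N q p`
for ALL homomorphisms `φ : Γ₀(N)[1/q] → ℤ/p` (no parabolicity), with `M = N p²`:
conjugate by `diag(p,1)`; `φ(u(p x)) = φ(u(x))^p = 1`, `φ(l(N p y)) = φ(l(N y))^p = 1`.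
-/
import Mathlib
import Fermat.Agent.S41.CspRed52.Reduce52
import Fermat.Agent.S41.Ihara73.Core
import Fermat.Agent.S41.Ihara95.Core

set_option autoImplicit false

namespace Fermat.Agent.S41.CspRed52

open Matrix Fermat.Agent.S41.Amalgam95 CongruenceSubgroup
open scoped MatrixGroups

/-- **The parabolic theorem** (the conclusion of the backup route), as a `Prop`. -/
def ParTheorem (q p : ℕ) : Prop :=
  ∀ N : ℕ, 0 < N → ¬ q ∣ N → ∀ F : SLQ → ZMod p, IsParSymbol N q F →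
    ∀ g ∈ DeltaQ N q, ∀ a c : ℤ, g 0 0 = a → g 1 0 = c → IsCoprime a c → a ≡ 1 [ZMOD N] →
      (N : ℤ) ∣ c → F g = 0

lemma uQ_mul_uQ (x y : ℚ) : uQ x * uQ y = uQ (x + y) := by
  apply ext_entries
  · rw [mul_00]; simp
  · rw [mul_01]; simp [add_comm]
  · rw [mul_10]; simp
  · rw [mul_11]; simp

lemma lQ_mul_lQ (x y : ℚ) : lQ x * lQ y = lQ (x + y) := by
  apply ext_entries
  · rw [mul_00]; simp
  · rw [mul_01]; simp
  · rw [mul_10]; simp
  · rw [mul_11]; simp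

lemma uQ_zero : uQ 0 = 1 := by
  apply ext_entries <;> simp

lemma lQ_zero : lQ 0 = 1 := by
  apply ext_entries <;> simp

lemma uQ_pow (x : ℚ) (n : ℕ) : uQ x ^ n = uQ (n * x) := by
  induction n with
  | zero => simp [uQ_zero]
  | succ k ih => rw [pow_succ, ih, uQ_mul_uQ]; congr 1; push_cast; ring

lemma lQ_pow (x : ℚ) (n : ℕ) : lQ x ^ n = lQ (n * x) := by
  induction n with
  | zero => simp [lQ_zero]
  | succ k ih => rw [pow_succ, ih, lQ_mul_lQ]; congr 1; push_cast; ring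

lemma pow_p_eq_one {p : ℕ} (y : Multiplicative (ZMod p)) : y ^ p = 1 := by
  apply Multiplicative.toAdd.injective
  rw [toAdd_pow, toAdd_one, nsmul_eq_mul, ZMod.natCast_self, zero_mul]

lemma tQ_conj_00 (q : ℕ) [Fact q.Prime] (g : SLQ) : ((tQ q)⁻¹ * g * tQ q) 0 0 = g 0 0 := by
  have hq' : (q : ℚ) ≠ 0 := by exact_mod_cast (Fact.out : q.Prime).ne_zero
  rw [mul_00, mul_00, mul_01, inv_00, inv_01]
  simp only [tQ, mkQ_00, mkQ_01, mkQ_10, mkQ_11]
  field_simp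
  ring

lemma tQ_conj_10 (q : ℕ) [Fact q.Prime] (g : SLQ) :
    ((tQ q)⁻¹ * g * tQ q) 1 0 = (q : ℚ) ^ 2 * g 1 0 := by
  have hq' : (q : ℚ) ≠ 0 := by exact_mod_cast (Fact.out : q.Prime).ne_zero
  rw [mul_10, mul_10, mul_11, inv_10, inv_11]
  simp only [tQ, mkQ_00, mkQ_10]
  ring

section Pull

variable (N q p : ℕ) (hp0 : p ≠ 0) (φ : ↥(DeltaQ N q) →* Multiplicative (ZMod p))

/-- `g ↦ φ(D g D⁻¹)`, `D = diag(p,1)`, extended by `0`. -/
noncomputable def pullF (g : SLQ) : ZMod p :=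
  open Classical in
  if h : conjδ p hp0 g ∈ DeltaQ N q then Multiplicative.toAdd (φ ⟨conjδ p hp0 g, h⟩) else 0

lemma conj_mem {g : SLQ} (hg : g ∈ DeltaQ (N * p ^ 2) q) : conjδ p hp0 g ∈ DeltaQ N q := by
  obtain ⟨g00, g01, ⟨r, hr, g10⟩, g11⟩ := hg
  have hp' : (p : ℚ) ≠ 0 := by exact_mod_cast hp0
  refine ⟨?_, ?_, ⟨(p : ℚ) * r, ?_, ?_⟩, ?_⟩
  · rw [conjδ_apply, conjFun_00]; exact g00
  · rw [conjδ_apply, conjFun_01]
    exact (by simpa using IsAway.of_int (q := q) (p : ℤ) : IsAway q (p : ℚ)).mul g01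
  · exact (by simpa using IsAway.of_int (q := q) (p : ℤ) : IsAway q (p : ℚ)).mul hr
  · rw [conjδ_apply, conjFun_10, g10]; push_cast; field_simp
  · rw [conjδ_apply, conjFun_11]; exact g11

lemma pullF_of_mem {g : SLQ} (h : conjδ p hp0 g ∈ DeltaQ N q) :
    pullF N q p hp0 φ g = Multiplicative.toAdd (φ ⟨conjδ p hp0 g, h⟩) := by
  unfold pullF
  rw [dif_pos h]

lemma conjδ_uQ (x : ℚ) : conjδ p hp0 (uQ x) = uQ ((p : ℚ) * x) := by
  apply ext_entries
  · rw [conjδ_apply, conjFun_00]; simp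
  · rw [conjδ_apply, conjFun_01]; simp
  · rw [conjδ_apply, conjFun_10]; simp
  · rw [conjδ_apply, conjFun_11]; simp

lemma conjδ_lQ (y : ℚ) : conjδ p hp0 (lQ ((p : ℚ) * y)) = lQ y := by
  have hp' : (p : ℚ) ≠ 0 := by exact_mod_cast hp0
  apply ext_entries
  · rw [conjδ_apply, conjFun_00]; simp
  · rw [conjδ_apply, conjFun_01]; simp
  · rw [conjδ_apply, conjFun_10]; simp; field_simp
  · rw [conjδ_apply, conjFun_11]; simp

theorem isParSymbol_pullF : IsParSymbol (N * p ^ 2) q (pullF N q p hp0 φ) where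
  map_mul g h hg hh := by
    have h1 := conj_mem N q p hp0 hg
    have h2 := conj_mem N q p hp0 hh
    have h3 := conj_mem N q p hp0 (mul_mem hg hh)
    rw [pullF_of_mem N q p hp0 φ h1, pullF_of_mem N q p hp0 φ h2, pullF_of_mem N q p hp0 φ h3,
      ← toAdd_mul, ← map_mul]
    congr 2
    exact Subtype.ext (map_mul (conjδ p hp0) g h)
  map_uQ x hx := by
    have h1 := conj_mem N q p hp0 (uQ_mem_DeltaQ (N * p ^ 2) hx)
    rw [pullF_of_mem N q p hp0 φ h1]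
    have hux : uQ x ∈ DeltaQ N q := uQ_mem_DeltaQ N hx
    have e : (⟨conjδ p hp0 (uQ x), h1⟩ : ↥(DeltaQ N q)) = ⟨uQ x, hux⟩ ^ p := by
      apply Subtype.ext
      rw [SubgroupClass.coe_pow]
      show conjδ p hp0 (uQ x) = uQ x ^ p
      rw [conjδ_uQ, uQ_pow]
    rw [e, map_pow, pow_p_eq_one, toAdd_one]
  map_lQ y hy := by
    have h1 := conj_mem N q p hp0 (lQ_mem_DeltaQ (N * p ^ 2) hy)
    rw [pullF_of_mem N q p hp0 φ h1]
    have hly : lQ ((N : ℚ) * y) ∈ DeltaQ N q := lQ_mem_DeltaQ N hy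
    have e : (⟨conjδ p hp0 (lQ (((N * p ^ 2 : ℕ) : ℚ) * y)), h1⟩ : ↥(DeltaQ N q)) =
        ⟨lQ ((N : ℚ) * y), hly⟩ ^ p := by
      apply Subtype.ext
      rw [SubgroupClass.coe_pow]
      show conjδ p hp0 (lQ (((N * p ^ 2 : ℕ) : ℚ) * y)) = lQ ((N : ℚ) * y) ^ p
      rw [lQ_pow]
      have : (((N * p ^ 2 : ℕ) : ℚ) * y) = (p : ℚ) * ((p : ℚ) * ((N : ℚ) * y)) := by
        push_cast; ring
      rw [this, conjδ_lQ]
    rw [e, map_pow, pow_p_eq_one, toAdd_one]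

end Pull

/-- **[PLUG7]**: the parabolic theorem implies the consumer plug `Ihara73.CSPPlug N q p`
(`M = N p²`), for every homomorphism `φ`. -/
theorem cspPlug73_of_parTheorem {N q p : ℕ} [hqp : Fact q.Prime] (hp : p.Prime) (hpq : p ≠ q)
    (hN : 0 < N) (hqN : ¬ q ∣ N) (hPar : ParTheorem q p) : Ihara73.CSPPlug N q p := by
  intro φ
  have hp0 : p ≠ 0 := hp.ne_zero
  have hq : q.Prime := hqp.out
  have hq' : (q : ℚ) ≠ 0 := by exact_mod_cast hq.ne_zero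
  have hp' : (p : ℚ) ≠ 0 := by exact_mod_cast hp0
  set N' := N * p ^ 2 with hN'
  have hN'0 : 0 < N' := by positivity
  have hqN' : ¬ q ∣ N' := by
    intro h
    rcases (Nat.Prime.dvd_mul hq).mp h with h | h
    · exact hqN h
    · exact hpq ((Nat.prime_dvd_prime_iff_eq hq hp).mp (hq.dvd_of_dvd_pow h)).symm
  have hsym := isParSymbol_pullF N q p hp0 φ
  have hzero := hPar N' hN'0 hqN' (pullF N q p hp0 φ) hsym
  refine ⟨N', hN'0, fun g hg => ?_⟩
  obtain ⟨h00, h01, h10, h11⟩ := Ihara95.Gamma_entries N' (g : SL(2, ℤ)) hg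
  set a : ℤ := (g : SL(2, ℤ)) 0 0 with ha
  set b : ℤ := (g : SL(2, ℤ)) 0 1 with hb
  set c : ℤ := (g : SL(2, ℤ)) 1 0 with hc
  set d : ℤ := (g : SL(2, ℤ)) 1 1 with hd
  have hdet : a * d - b * c = 1 := by
    have := (g : SL(2, ℤ)).det_coe
    rw [Matrix.det_fin_two] at this
    exact this
  obtain ⟨b', hb'⟩ := h01
  obtain ⟨c', hc'⟩ := h10
  have hN'Z : (N' : ℤ) = (N : ℤ) * (p : ℤ) ^ 2 := by rw [hN']; push_cast; ring
  have ha1 : a ≡ 1 [ZMOD N'] := (Int.modEq_of_dvd (h00 : (N' : ℤ) ∣ a - 1)).symm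
  have hac : IsCoprime a c := ⟨d, -b, by linarith⟩
  have hap : IsCoprime a (p : ℤ) := by
    obtain ⟨k, hk⟩ := h00
    refine ⟨1, -((N : ℤ) * p * k), ?_⟩
    rw [hN'Z] at hk
    linear_combination hk
  have hapc : IsCoprime a ((p : ℤ) * c) := hap.mul_right hac
  have hN'pc : (N' : ℤ) ∣ (p : ℤ) * c := by rw [hc']; exact Dvd.intro ((p : ℤ) * c') (by ring)
  constructor
  · -- `castSL g = D Y D⁻¹`
    set Y : SLQ := (conjδ p hp0).symm (castSL (g : SL(2, ℤ))) with hY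
    have hθY : conjδ p hp0 Y = castSL (g : SL(2, ℤ)) := (conjδ p hp0).apply_symm_apply _
    have hY00 : Y 0 0 = (a : ℚ) := by rw [hY, conjδ_symm_apply, conjInvFun_00, castSL_apply]
    have hY10 : Y 1 0 = (((p : ℤ) * c : ℤ) : ℚ) := by
      rw [hY, conjδ_symm_apply, conjInvFun_10, castSL_apply]; push_cast; ring
    have hYmem : Y ∈ DeltaQ N' q := by
      refine ⟨?_, ?_, ⟨(((p : ℤ) * c' : ℤ) : ℚ), IsAway.of_int _, ?_⟩, ?_⟩
      · rw [hY00]; exact IsAway.of_int a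
      · rw [hY, conjδ_symm_apply, conjInvFun_01, castSL_apply]
        have : (((g : SL(2, ℤ)) 0 1 : ℤ) : ℚ) / (p : ℚ) = (((N : ℤ) * p * b' : ℤ) : ℚ) := by
          rw [← hb, hb', hN'Z]; push_cast; field_simp
        rw [this]; exact IsAway.of_int _
      · rw [hY10, hc']; push_cast; ring
      · rw [hY, conjδ_symm_apply, conjInvFun_11, castSL_apply]; exact IsAway.of_int _
    have h0 := hzero Y hYmem a ((p : ℤ) * c) hY00 hY10 hapc ha1 hN'pc
    have hmem : conjδ p hp0 Y ∈ DeltaQ N q := conj_mem N q p hp0 hYmem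
    rw [pullF_of_mem N q p hp0 φ hmem] at h0
    have e : (⟨conjδ p hp0 Y, hmem⟩ : ↥(DeltaQ N q)) =
        ⟨castSL (g : SL(2, ℤ)), castSL_mem_DeltaQ N q g⟩ := Subtype.ext hθY
    rw [e] at h0
    exact Multiplicative.toAdd.injective h0
  · -- `δ (castSL g) δ⁻¹ = D Y D⁻¹`
    set X : SLQ := conjδ q (q_ne_zero q) (castSL (g : SL(2, ℤ))) with hX
    set Y : SLQ := (conjδ p hp0).symm X with hY
    have hθY : conjδ p hp0 Y = X := (conjδ p hp0).apply_symm_apply _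
    have hY00 : Y 0 0 = (a : ℚ) := by
      rw [hY, conjδ_symm_apply, conjInvFun_00, hX, conjδ_apply, conjFun_00, castSL_apply]
    have hY10 : Y 1 0 = (p : ℚ) * ((c : ℚ) / q) := by
      rw [hY, conjδ_symm_apply, conjInvFun_10, hX, conjδ_apply, conjFun_10, castSL_apply]
    have hqA : IsAway q (q : ℚ) := by simpa using IsAway.of_int (q := q) (q : ℤ)
    have hYmem : Y ∈ DeltaQ N' q := by
      refine ⟨?_, ?_, ⟨(((p : ℤ) * c' : ℤ) : ℚ) / q, (IsAway.of_int _).div_q hq.ne_zero, ?_⟩, ?_⟩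
      · rw [hY00]; exact IsAway.of_int a
      · rw [hY, conjδ_symm_apply, conjInvFun_01, hX, conjδ_apply, conjFun_01, castSL_apply]
        have : (q : ℚ) * (((g : SL(2, ℤ)) 0 1 : ℤ) : ℚ) / (p : ℚ) =
            (q : ℚ) * (((N : ℤ) * p * b' : ℤ) : ℚ) := by
          rw [← hb, hb', hN'Z]; push_cast; field_simp
        rw [this]; exact hqA.mul (IsAway.of_int _)
      · rw [hY10, hc']; push_cast; field_simp
      · rw [hY, conjδ_symm_apply, conjInvFun_11, hX, conjδ_apply, conjFun_11, castSL_apply]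
        exact IsAway.of_int _
    -- choose `e ∈ {0,1}` with `q ∤ a + e p c`
    obtain ⟨e, hqe⟩ : ∃ e : ℤ, ¬ (q : ℤ) ∣ a + e * ((p : ℤ) * c) := by
      by_cases hqa : (q : ℤ) ∣ a
      · refine ⟨1, fun h => ?_⟩
        have h2 : (q : ℤ) ∣ (p : ℤ) * c := by
          have := dvd_sub h hqa
          simpa using this
        have hu : IsUnit (q : ℤ) := hapc.isUnit_of_dvd' hqa h2
        have : (q : ℤ).natAbs = 1 := Int.isUnit_iff_natAbs_eq.mp hu
        rw [Int.natAbs_natCast] at this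
        exact hq.one_lt.ne' this
      · exact ⟨0, by simpa using hqa⟩
    set Y₁ : SLQ := uQ ((q : ℚ) * (e : ℚ)) * Y with hY₁
    have hxA : IsAway q ((q : ℚ) * (e : ℚ)) := hqA.mul (IsAway.of_int e)
    have hY₁mem : Y₁ ∈ DeltaQ N' q := mul_mem (uQ_mem_DeltaQ N' hxA) hYmem
    set Y₂ : SLQ := (tQ q)⁻¹ * Y₁ * tQ q with hY₂
    have hY₂mem : Y₂ ∈ DeltaQ N' q :=
      mul_mem (mul_mem (inv_mem (tQ_mem_DeltaQ N' q)) hY₁mem) (tQ_mem_DeltaQ N' q)
    have hF₁ : pullF N q p hp0 φ Y₁ = pullF N q p hp0 φ Y := hsym.uQ_mul hxA hYmem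
    have hF₂ : pullF N q p hp0 φ Y₂ = pullF N q p hp0 φ Y₁ := hsym.conj_tQ hY₁mem
    have hY₂00 : Y₂ 0 0 = ((a + e * ((p : ℤ) * c) : ℤ) : ℚ) := by
      rw [hY₂, tQ_conj_00, hY₁, uQ_mul_00, hY00, hY10]; push_cast; field_simp
    have hY₂10 : Y₂ 1 0 = (((q : ℤ) * ((p : ℤ) * c) : ℤ) : ℚ) := by
      rw [hY₂, tQ_conj_10, hY₁, uQ_mul_10, hY10]; push_cast; field_simp
    have hcop : IsCoprime (a + e * ((p : ℤ) * c)) ((q : ℤ) * ((p : ℤ) * c)) := by
      have h1 : IsCoprime (a + e * ((p : ℤ) * c)) ((p : ℤ) * c) := by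
        have h3 : a + e * ((p : ℤ) * c) = a + (p : ℤ) * c * e := by ring
        rw [h3]
        exact hapc.add_mul_left_left e
      have hqprime : Irreducible (q : ℤ) := (Nat.prime_iff_prime_int.mp hq).irreducible
      have h2 : IsCoprime (a + e * ((p : ℤ) * c)) (q : ℤ) :=
        (hqprime.coprime_iff_not_dvd.mpr hqe).symm
      exact h2.mul_right h1
    have ha1' : a + e * ((p : ℤ) * c) ≡ 1 [ZMOD N'] := by
      have : (N' : ℤ) ∣ e * ((p : ℤ) * c) := Dvd.dvd.mul_left hN'pc e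
      have h2 : a + e * ((p : ℤ) * c) ≡ a + 0 [ZMOD N'] :=
        Int.ModEq.add_left a ((Int.modEq_zero_iff_dvd).mpr this)
      simpa using h2.trans (by simpa using ha1)
    have hdvd : (N' : ℤ) ∣ (q : ℤ) * ((p : ℤ) * c) := Dvd.dvd.mul_left hN'pc _
    have h0 := hzero Y₂ hY₂mem _ _ hY₂00 hY₂10 hcop ha1' hdvd
    rw [hF₂, hF₁] at h0
    have hmem : conjδ p hp0 Y ∈ DeltaQ N q := conj_mem N q p hp0 hYmem
    rw [pullF_of_mem N q p hp0 φ hmem] at h0
    have e' : (⟨conjδ p hp0 Y, hmem⟩ : ↥(DeltaQ N q)) =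
        ⟨conjδ q (q_ne_zero q) (castSL (g : SL(2, ℤ))), conj_castSL_mem_DeltaQ N q g⟩ :=
      Subtype.ext hθY
    rw [e'] at h0
    exact Multiplicative.toAdd.injective h0

end Fermat.Agent.S41.CspRed52
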