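/-
S41 / C4 [CSP], BACKUP route (helper7 #3041) (helper52): the chain
`LevelStatement q p` (= §1 [INV] + §2 [FE] + §3 (iii): vanishing at ONE prime level `c = N r`)
`⟹ ParTheorem q p` ([REDUCE]) `⟹ Ihara73.CSPPlug N q p` ([PLUG7]).
-/
import Mathlib
import Fermat.Agent.S41.CspRed52.Plug7

set_option autoImplicit false

namespace Fermat.Agent.S41.CspRed52

open Matrix Fermat.Agent.S41.Amalgam95

/-- **What remains of the backup route**: a parabolic symbol `F` on `Γ₀(N)[1/q]` vanishes on every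
element whose first column is `(a, N r)`, `a ≡ 1 mod N` an integer, `r` a good prime. -/
def LevelStatement (q p : ℕ) : Prop :=
  ∀ N : ℕ, 0 < N → ¬ q ∣ N → ∀ F : SLQ → ZMod p, IsParSymbol N q F →
    ∀ r, GoodPrime N q p r → ∀ g ∈ DeltaQ N q, ∀ a : ℤ, g 0 0 = a → a ≡ 1 [ZMOD N] →
      g 1 0 = ((N * r : ℕ) : ℚ) → F g = 0

theorem parTheorem_of_level {q p : ℕ} (hp : p.Prime) (h : LevelStatement q p) : ParTheorem q p :=
  fun N hN hqN F hF g hg a c h0 h1 hac ha hNc =>
    reduce hF hN hp (h N hN hqN F hF) g hg a c h0 h1 hac ha hNc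

/-- The consumer plug from the one-level statement. -/
theorem cspPlug73_of_level {N q p : ℕ} [Fact q.Prime] (hp : p.Prime) (hpq : p ≠ q)
    (hN : 0 < N) (hqN : ¬ q ∣ N) (h : LevelStatement q p) :
    Fermat.Agent.S41.Ihara73.CSPPlug N q p :=
  cspPlug73_of_parTheorem hp hpq hN hqN (parTheorem_of_level hp h)

/-- Consequences of `GoodPrime` used at the level `c = N r`. -/
theorem GoodPrime.odd {N q p r : ℕ} (h : GoodPrime N q p r) : r % 2 = 1 := by
  have := h.mod4
  unfold Nat.ModEq at this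
  omega

end Fermat.Agent.S41.CspRed52
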